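import Fermat.Agent.LocalIrreducible.Procyclic

/-!
# The cyclotomic extension

The kernel of the cyclotomic character is the kernel of its logarithm near one, so at potentially
supersingular reduction only finitely many points of `p`-power order are rational over the
cyclotomic extension of a finite extension of `ℚ_p`. The image of an open subgroup is not procyclic.
-/

set_option autoImplicit false
set_option linter.unusedSectionVars false
set_option linter.style.haveILetI false

noncomputable section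

open Matrix WeierstrassCurve FA.TateSen FA.Frob FA.EC FA.Local FA.RT FA.RT.Tate FA.CurveDR FA.PotDR
  FA.Brumer
open scoped WeierstrassCurve.Affine Classical Topology

namespace FA.LocIrr

variable {p : ℕ} [hp : Fact p.Prime] {W : WeierstrassCurve ℤ} [(ratCurve W).IsElliptic]

local notation "Qb" => AlgebraicClosure ℚ
local notation "G" => PadicAlgCl p ≃ₐ[ℚ_[p]] PadicAlgCl p
local notation "GQ" => AlgebraicClosure ℚ ≃ₐ[ℚ] AlgebraicClosure ℚ

theorem chi_pow_eq_one {σ : G} (h : logChi p σ = 0) :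
    ((chi p σ : ℤ_[p]) : ℚ_[p]) ^ logExp p = 1 := by
  rw [logChi, div_eq_zero_iff, or_iff_left (Nat.cast_ne_zero.2 logExp_pos.ne')] at h
  have h1 := pexp_plog (p := p) (norm_chi_pow_sub_one σ)
  rw [h, pexp_zero] at h1
  exact h1.symm

/-- Near one the character is trivial where its logarithm vanishes. -/
theorem exists_chi_eq_one : ∃ V : Subgroup G, IsOpen (V : Set G) ∧
    ∀ σ ∈ V, logChi p σ = 0 → chi p σ = 1 := by
  set S : Set ℚ_[p] := {x | x ^ logExp p = 1 ∧ x ≠ 1} with hS
  have hfin : S.Finite :=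
    (Multiset.finite_toSet (Polynomial.nthRoots (logExp p) (1 : ℚ_[p]))).subset fun x hx =>
      (Polynomial.mem_nthRoots logExp_pos).2 hx.1
  set c : G → ℚ_[p] := fun σ => ((chi p σ : ℤ_[p]) : ℚ_[p])
  have hc : Continuous c :=
    continuous_subtype_val.comp
      ((Units.continuous_val (M := ℤ_[p])).comp continuous_chi)
  obtain ⟨V, -, hV, hVS⟩ := FA.Sen.exists_open_normal_subset (W := c ⁻¹' Sᶜ)
    ((hfin.isClosed.isOpen_compl.preimage hc).mem_nhds (by simp [S, c]))
  refine ⟨V, hV, fun σ hσ h0 => Units.ext (Subtype.ext ?_)⟩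
  by_contra hne
  exact hVS σ hσ ⟨chi_pow_eq_one h0, hne⟩

/-- **Finitely many points of `p`-power order are fixed by the kernel of `χ` in an open
subgroup.** -/
theorem finite_fixed_by_ker_chi (h : PotSupersingular p W) {U : Subgroup G}
    (hU : IsOpen (U : Set G)) :
    {P : Pts W | (∃ n, p ^ n • P = 0) ∧
      ∀ τ ∈ U, chi p τ = 1 → localGaloisToGlobal p τ • P = P}.Finite := by
  obtain ⟨V, hV, hV1⟩ := exists_chi_eq_one (p := p)
  refine (finite_fixed_by_kernel h (U := U ⊓ V) (hU.inter hV) continuous_logChi.continuousOn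
    (fun σ _ τ _ => logChi_mul σ τ)).subset fun P hP => ⟨hP.1, fun τ hτ h0 => ?_⟩
  exact hP.2 τ hτ.1 (hV1 τ hτ.2 h0)

/-- An element of the fixing group of `K` with trivial character fixes `K (μ_{p^∞})`. -/
theorem mem_fix_sup_cycInf {K : IntermediateField ℚ_[p] (PadicAlgCl p)} {τ : G}
    (hτ : τ ∈ K.fixingSubgroup) (hχ : chi p τ = 1) : τ ∈ (K ⊔ cycInf p).fixingSubgroup := by
  have hle : K ⊔ cycInf p ≤ IntermediateField.fixedField (Subgroup.zpowers τ) := by
    refine sup_le ?_ ?_ <;> rw [IntermediateField.le_iff_le, Subgroup.zpowers_le]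
    · exact hτ
    · exact (mem_fix_cycInf_iff τ).2 hχ
  rw [IntermediateField.le_iff_le, Subgroup.zpowers_le] at hle
  exact hle

/-- An automorphism with trivial character fixes the roots of unity of `p`-power order in `ℚ̄`. -/
theorem loc_apply_root_of_chi {τ : G} (hχ : chi p τ = 1) {n : ℕ} {z : Qb} (hz : z ^ p ^ n = 1) :
    localGaloisToGlobal p τ z = z := by
  refine (padicEmbedding p).injective ?_
  have h1 := (mem_fix_cycInf_iff τ).2 hχ
  show padicEmbedding p (localGaloisToGlobal p τ z) = padicEmbedding p z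
  rw [padicEmbedding_localGaloisToGlobal]
  exact fixed_of_le h1 (cycLevel_le_cycInf n
    (IntermediateField.subset_adjoin _ _ (show padicEmbedding p z ^ p ^ n = 1 by
      rw [← map_pow, hz, map_one])))

/-- **Over `K (μ_{p^∞})`**, `K` a finite extension of `ℚ_p`. -/
theorem finite_torsion_local_cyclotomic (h : PotSupersingular p W)
    (K : IntermediateField ℚ_[p] (PadicAlgCl p)) [FiniteDimensional ℚ_[p] K] :
    {P : Pts W | (∃ n, p ^ n • P = 0) ∧
      ∀ τ ∈ (K ⊔ cycInf p).fixingSubgroup, localGaloisToGlobal p τ • P = P}.Finite := by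
  refine (finite_fixed_by_ker_chi h (U := K.fixingSubgroup) K.fixingSubgroup_isOpen).subset
    fun P hP => ⟨hP.1, fun τ hτ hχ => hP.2 τ (mem_fix_sup_cycInf hτ hχ)⟩

/-- **Over `F (μ_{p^∞})`**, `F` a number field. -/
theorem finite_torsion_global_cyclotomic (h : PotSupersingular p W)
    (F : IntermediateField ℚ Qb) [FiniteDimensional ℚ F] :
    {P : Pts W | (∃ n, p ^ n • P = 0) ∧
      ∀ σ : GQ, σ ∈ F.fixingSubgroup → (∀ (n : ℕ) (z : Qb), z ^ p ^ n = 1 → σ z = z) →
        σ • P = P}.Finite := by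
  refine (finite_fixed_by_ker_chi h (U := F.fixingSubgroup.comap (localGaloisToGlobal p))
    ((IntermediateField.fixingSubgroup_isOpen F).preimage FA.GalCoh.continuous_loc)).subset
    fun P hP => ⟨hP.1, fun τ hτ hχ =>
      hP.2 _ hτ fun n z hz => loc_apply_root_of_chi hχ hz⟩

/-- **The image of an open subgroup is not procyclic**: some element acts on some torsion point as
no power of a given one. -/
theorem not_procyclic (h : PotSupersingular p W) (B : TateBasis p W) {U : Subgroup G}
    (hU : IsOpen (U : Set G)) (γ : GQ) :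
    ∃ n, ∃ τ ∈ U, ∃ P : Pts W, p ^ n • P = 0 ∧
      ∀ k : ℕ, localGaloisToGlobal p τ • P ≠ (γ ^ k) • P := by
  by_contra hc
  push Not at hc
  haveI : NeZero (p ^ 1) := ⟨pow_ne_zero _ hp.out.ne_zero⟩
  set u : (Matrix (Fin 2) (Fin 2) (ZMod (p ^ 1)))ˣ :=
    Units.map ((PadicInt.toZModPow (p := p) 1).mapMatrix.toMonoidHom.comp B.rep) (toUnits γ)
  set d := orderOf u
  have hd : 0 < d := orderOf_pos u
  set M := B.rep γ ^ d with hMdef
  have hM : ∃ A : Matrix (Fin 2) (Fin 2) ℤ_[p], M = 1 + (p : ℤ_[p]) • A := by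
    have h1 : M.map (PadicInt.toZModPow 1) = 1 := by
      have h2 := congrArg Units.val (pow_orderOf_eq_one u)
      rw [Units.val_pow_eq_pow_val, Units.val_one] at h2
      rw [← h2, hMdef, ← RingHom.mapMatrix_apply, map_pow]
      rfl
    have hdiv : ∀ i j, ∃ a, (M - 1) i j = (p : ℤ_[p]) * a := fun i j => by
      rw [← dvd_def, ← Ideal.mem_span_singleton, ← pow_one (p : ℤ_[p]),
        ← PadicInt.ker_toZModPow, RingHom.mem_ker, Matrix.sub_apply, map_sub,
        ← Matrix.map_apply (f := PadicInt.toZModPow 1) (M := M), h1]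
      fin_cases i <;> fin_cases j <;> simp
    choose A hA using hdiv
    refine ⟨A, Matrix.ext fun i j => ?_⟩
    rw [Matrix.add_apply, Matrix.smul_apply, smul_eq_mul, ← hA, Matrix.sub_apply, add_sub_cancel]
  obtain ⟨n, hn⟩ := exists_orbit_gt h B hU (e := fun _ => 1) (i := 0) isUnit_one d
  refine absurd hn (not_lt.2 ?_)
  set e : Fin 2 → ℤ_[p] := fun _ => 1
  have hsub : orbitAt U (B.φ (n + 1) e) ⊆
      Set.range fun k : Fin (d * p ^ n) => (γ ^ (k : ℕ)) • B.φ (n + 1) e := by
    rintro _ ⟨τ, hτ, rfl⟩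
    obtain ⟨k, hk⟩ := hc (n + 1) τ hτ _ (B.nsmul_phi (n + 1) e)
    refine ⟨⟨k % (d * p ^ n), Nat.mod_lt _ (Nat.mul_pos hd (pow_pos hp.out.pos n))⟩, ?_⟩
    show (γ ^ (k % (d * p ^ n))) • B.φ (n + 1) e = localGaloisToGlobal p τ • B.φ (n + 1) e
    rw [hk, B.rep_spec, B.rep_spec, map_pow, map_pow]
    conv_rhs => rw [← Nat.div_add_mod k (d * p ^ n)]
    rw [pow_add, mul_assoc, pow_mul, ← hMdef, ← Matrix.mulVec_mulVec,
      phi_pow_mod B hM n _ (p ^ n * _), Nat.mul_mod_right, pow_zero, Matrix.one_mulVec]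
  refine (Set.ncard_le_ncard hsub (Set.finite_range _)).trans ?_
  rw [← Nat.card_coe_set_eq]
  exact (Finite.card_range_le _).trans_eq (Nat.card_fin _)

end FA.LocIrr
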