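import Fermat.Agent.LocalIrreducible.Irreducible
import Fermat.Agent.KummerDeRham.Kummer

/-!
# Points fixed by the kernel of a character

An open subgroup acts on the points fixed by the kernel of a character with values in `ℚ_p` through
a procyclic group, so gives points of order `p ^ (n + 1)` at most `p ^ n` conjugates. At potentially
supersingular reduction this leaves only finitely many of them.
-/

set_option autoImplicit false
set_option linter.unusedSectionVars false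
set_option linter.style.haveILetI false

noncomputable section

open Matrix WeierstrassCurve FA.TateSen FA.Frob FA.EC FA.Local FA.RT FA.RT.Tate FA.CurveDR FA.PotDR
open scoped WeierstrassCurve.Affine Classical Topology

namespace FA.LocIrr

variable {p : ℕ} [hp : Fact p.Prime] {W : WeierstrassCurve ℤ} [(ratCurve W).IsElliptic]

local notation "Qb" => AlgebraicClosure ℚ
local notation "G" => PadicAlgCl p ≃ₐ[ℚ_[p]] PadicAlgCl p

/-- A power `p ^ n` of a matrix congruent to one modulo `p` is congruent to one modulo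
`p ^ (n + 1)`. -/
theorem exists_pow_eq_one_add {M : Matrix (Fin 2) (Fin 2) ℤ_[p]}
    (hM : ∃ A : Matrix (Fin 2) (Fin 2) ℤ_[p], M = 1 + (p : ℤ_[p]) • A) :
    ∀ n : ℕ, ∃ A : Matrix (Fin 2) (Fin 2) ℤ_[p], M ^ p ^ n = 1 + ((p : ℤ_[p]) ^ (n + 1)) • A
  | 0 => by simpa using hM
  | n + 1 => by
    obtain ⟨A, hA⟩ := exists_pow_eq_one_add hM n
    set X := M ^ p ^ n
    have hX : ∀ i, ∃ A' : Matrix (Fin 2) (Fin 2) ℤ_[p], X ^ i = 1 + (p : ℤ_[p]) • A' := fun i => by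
      induction i with
      | zero => exact ⟨0, by simp⟩
      | succ i ih =>
        obtain ⟨A', hA'⟩ := ih
        refine ⟨A' * X + (p : ℤ_[p]) ^ n • A, ?_⟩
        rw [pow_succ, hA', add_mul, one_mul, smul_mul_assoc, smul_add, smul_smul, ← pow_succ',
          add_comm ((p : ℤ_[p]) • (A' * X)), ← add_assoc, hA]
    choose A' hA' using hX
    refine ⟨(1 + ∑ i ∈ Finset.range p, A' i) * A, ?_⟩
    have hsum : ∑ i ∈ Finset.range p, X ^ i =
        (p : ℤ_[p]) • (1 + ∑ i ∈ Finset.range p, A' i) := by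
      rw [Finset.sum_congr rfl (fun i _ => hA' i), Finset.sum_add_distrib, Finset.sum_const,
        Finset.card_range, ← Finset.smul_sum, smul_add, ← Nat.cast_smul_eq_nsmul ℤ_[p] p
          (1 : Matrix (Fin 2) (Fin 2) ℤ_[p])]
    have h := geom_sum_mul X p
    rw [hsum, show X - 1 = ((p : ℤ_[p]) ^ (n + 1)) • A by rw [hA, add_sub_cancel_left],
      smul_mul_assoc, mul_smul_comm, smul_smul, ← pow_succ', eq_sub_iff_add_eq] at h
    rw [pow_succ p n, pow_mul, ← h, add_comm]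

/-- A matrix congruent to one modulo `p` moves a point of order `p ^ (n + 1)` with period dividing
`p ^ n`. -/
theorem phi_pow_mod (B : TateBasis p W) {M : Matrix (Fin 2) (Fin 2) ℤ_[p]}
    (hM : ∃ A : Matrix (Fin 2) (Fin 2) ℤ_[p], M = 1 + (p : ℤ_[p]) • A) (n : ℕ)
    (e : Fin 2 → ℤ_[p]) (k : ℕ) :
    B.φ (n + 1) (M ^ k *ᵥ e) = B.φ (n + 1) (M ^ (k % p ^ n) *ᵥ e) := by
  obtain ⟨A, hA⟩ := exists_pow_eq_one_add hM n
  have h1 : ∀ v, B.φ (n + 1) (M ^ p ^ n *ᵥ v) = B.φ (n + 1) v := fun v => by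
    rw [B.phi_eq_iff]
    intro i
    rw [hA, Matrix.add_mulVec, Matrix.one_mulVec, Matrix.smul_mulVec, Pi.add_apply,
      Pi.smul_apply, smul_eq_mul, map_add, map_mul, map_pow, map_natCast, ← Nat.cast_pow,
      ZMod.natCast_self, zero_mul, add_zero]
  have h2 : ∀ (q : ℕ) v, B.φ (n + 1) ((M ^ p ^ n) ^ q *ᵥ v) = B.φ (n + 1) v := fun q => by
    induction q with
    | zero => intro v; rw [pow_zero, Matrix.one_mulVec]
    | succ q ih => intro v; rw [pow_succ, ← Matrix.mulVec_mulVec, ih, h1]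
  conv_lhs => rw [← Nat.div_add_mod k (p ^ n), pow_add, pow_mul, ← Matrix.mulVec_mulVec, h2]

/-- The stabiliser of a point in the Galois group of `ℚ_p`. -/
def stabAt (P : Pts W) : Subgroup G :=
  (MulAction.stabilizer (AlgebraicClosure ℚ ≃ₐ[ℚ] AlgebraicClosure ℚ) P).comap
    (localGaloisToGlobal p)

theorem mem_stabAt {P : Pts W} {σ : G} :
    σ ∈ stabAt (p := p) P ↔ localGaloisToGlobal p σ • P = P := Iff.rfl

theorem isOpen_stabAt (P : Pts W) : IsOpen (stabAt (p := p) P : Set G) := by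
  obtain ⟨S, hS, hfix⟩ := FA.KDR.exists_open_stabiliser P
  refine Subgroup.isOpen_mono (H₁ := fixGal p S) (fun σ hσ => ?_) (isOpen_fixGal hS)
  exact mem_stabAt.2 (hfix _ fun x hx => apply_of_mem_fixGal hσ hx)

/-- An open subgroup on which the torsion of order `p` is fixed. -/
theorem exists_congr_one (B : TateBasis p W) :
    ∃ N : Subgroup G, IsOpen (N : Set G) ∧ ∀ σ ∈ N, ∃ A : Matrix (Fin 2) (Fin 2) ℤ_[p],
      B.rep (localGaloisToGlobal p σ) = 1 + (p : ℤ_[p]) • A := by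
  obtain ⟨L, hL, h⟩ := B.exists_field 1
  refine ⟨L.fixingSubgroup.comap (localGaloisToGlobal p),
    (IntermediateField.fixingSubgroup_isOpen L).preimage FA.GalCoh.continuous_loc, fun σ hσ => ?_⟩
  have h1 := h _ fun a ha => (IntermediateField.mem_fixingSubgroup_iff L _).1 hσ a ha
  have hd : ∀ i j, ∃ a, (B.rep (localGaloisToGlobal p σ) - 1) i j = (p : ℤ_[p]) * a := fun i j => by
    rw [← dvd_def, ← Ideal.mem_span_singleton, ← pow_one (p : ℤ_[p]), ← PadicInt.ker_toZModPow,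
      RingHom.mem_ker, Matrix.sub_apply, map_sub, ← Matrix.map_apply (f := PadicInt.toZModPow 1)
        (M := B.rep (localGaloisToGlobal p σ)), h1]
    fin_cases i <;> fin_cases j <;> simp
  choose A hA using hd
  refine ⟨A, Matrix.ext fun i j => ?_⟩
  rw [Matrix.add_apply, Matrix.smul_apply, smul_eq_mul, ← hA, Matrix.sub_apply, add_sub_cancel]

/-- **A procyclic action**: if the kernel of `ψ` fixes a point of order `p ^ (n + 1)`, it has at
most `p ^ n` conjugates under an open subgroup congruent to one modulo `p`. -/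
theorem ncard_orbit_le (B : TateBasis p W) {U : Subgroup G} (hU : IsOpen (U : Set G))
    (hU1 : ∀ σ ∈ U, ∃ A : Matrix (Fin 2) (Fin 2) ℤ_[p],
      B.rep (localGaloisToGlobal p σ) = 1 + (p : ℤ_[p]) • A)
    {ψ : G → ℚ_[p]} (hψ : ContinuousOn ψ (U : Set G))
    (hadd : ∀ σ ∈ U, ∀ τ ∈ U, ψ (σ * τ) = ψ σ + ψ τ) {n : ℕ} {e : Fin 2 → ℤ_[p]}
    (hker : ∀ τ ∈ U, ψ τ = 0 → localGaloisToGlobal p τ • B.φ (n + 1) e = B.φ (n + 1) e) :
    (orbitAt U (B.φ (n + 1) e)).ncard ≤ p ^ n := by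
  set P := B.φ (n + 1) e with hP
  have hUc : IsClosed (U : Set G) := Subgroup.isClosed_of_isOpen U hU
  have hone : ψ 1 = 0 := by simpa using hadd 1 U.one_mem 1 U.one_mem
  obtain ⟨σ₀, hσ₀, hmax⟩ := hUc.isCompact.exists_isMaxOn ⟨1, U.one_mem⟩ hψ.norm
  -- away from the stabiliser the character is bounded below
  obtain ⟨ε, hε, hsmall⟩ : ∃ ε > 0, ∀ τ ∈ U, ‖ψ τ‖ < ε → τ ∈ stabAt (p := p) P := by
    set K := (U : Set G) \ (stabAt (p := p) P : Set G)
    have hK : IsCompact K := (hUc.sdiff (isOpen_stabAt P)).isCompact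
    rcases K.eq_empty_or_nonempty with hK0 | hK0
    · refine ⟨1, one_pos, fun τ hτ _ => ?_⟩
      by_contra hn
      exact Set.notMem_empty τ (hK0 ▸ ⟨hτ, hn⟩)
    · obtain ⟨τ₀, ⟨hτ₀, hτ₀'⟩, hmin⟩ := hK.exists_isMinOn hK0 (hψ.norm.mono Set.sdiff_subset)
      refine ⟨‖ψ τ₀‖, norm_pos_iff.2 fun h0 => hτ₀' (mem_stabAt.2 (hker τ₀ hτ₀ h0)),
        fun τ hτ hlt => ?_⟩
      by_contra hn
      exact absurd hlt (not_lt.2 (hmin ⟨hτ, hn⟩))
  -- every element acts as a power of `σ₀`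
  have hpow : ∀ i : ℕ, ψ (σ₀ ^ i) = i * ψ σ₀ := fun i => by
    induction i with
    | zero => simp [hone]
    | succ i ih =>
      rw [pow_succ, hadd _ (pow_mem hσ₀ i) _ hσ₀, ih, Nat.cast_succ, add_one_mul]
  have hgen : ∀ σ ∈ U, ∃ i : ℕ, localGaloisToGlobal p σ • P =
      localGaloisToGlobal p (σ₀ ^ i) • P := fun σ hσ => by
    obtain ⟨i, hi⟩ : ∃ i : ℕ, ‖ψ σ - i * ψ σ₀‖ < ε := by
      by_cases h0 : ψ σ₀ = 0
      · have h1 := hmax hσ
        simp only [Set.mem_ofPred_eq, h0, norm_zero, norm_le_zero_iff] at h1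
        exact ⟨0, by simp [h1, hε]⟩
      · let z : ℤ_[p] := ⟨ψ σ / ψ σ₀, by
          rw [norm_div, div_le_one (norm_pos_iff.2 h0)]; exact hmax hσ⟩
        obtain ⟨m, hm⟩ := PadicInt.exists_pow_neg_lt p (div_pos hε (norm_pos_iff.2 h0))
        refine ⟨z.appr m, ?_⟩
        have h2 := (PadicInt.norm_le_pow_iff_mem_span_pow _ m).2 (PadicInt.appr_spec m z)
        have e1 : ψ σ - (z.appr m : ℕ) * ψ σ₀ = ((z - (z.appr m : ℕ) : ℤ_[p]) : ℚ_[p]) * ψ σ₀ := by
          rw [PadicInt.coe_sub, PadicInt.coe_natCast, sub_mul]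
          show _ = ψ σ / ψ σ₀ * ψ σ₀ - _
          rw [div_mul_cancel₀ _ h0]
        rw [e1, norm_mul, ← lt_div_iff₀ (norm_pos_iff.2 h0)]
        exact h2.trans_lt hm
    refine ⟨i, ?_⟩
    set τ := (σ₀ ^ i)⁻¹ * σ with hτ
    have hτU : τ ∈ U := U.mul_mem (U.inv_mem (pow_mem hσ₀ i)) hσ
    have hστ : σ = σ₀ ^ i * τ := by rw [hτ, mul_inv_cancel_left]
    have h3 : ψ τ = ψ σ - i * ψ σ₀ := by
      rw [hστ, hadd _ (pow_mem hσ₀ i) _ hτU, hpow, add_sub_cancel_left]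
    rw [hστ, map_mul, mul_smul, mem_stabAt.1 (hsmall τ hτU (by rwa [h3]))]
  have hsub : orbitAt U P ⊆
      Set.range fun k : Fin (p ^ n) => localGaloisToGlobal p (σ₀ ^ (k : ℕ)) • P := by
    rintro _ ⟨σ, hσ, rfl⟩
    obtain ⟨i, hi⟩ := hgen σ hσ
    refine ⟨⟨i % p ^ n, Nat.mod_lt _ (pow_pos hp.out.pos n)⟩, ?_⟩
    show localGaloisToGlobal p (σ₀ ^ (i % p ^ n)) • P = localGaloisToGlobal p σ • P
    rw [hi, hP, B.rep_spec, B.rep_spec, map_pow, map_pow, map_pow, map_pow,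
      phi_pow_mod B (hU1 σ₀ hσ₀) n e i]
  refine (Set.ncard_le_ncard hsub (Set.finite_range _)).trans ?_
  rw [← Nat.card_coe_set_eq]
  exact (Finite.card_range_le _).trans_eq (Nat.card_fin _)

/-- No line is fixed pointwise by the kernel of a character on an open subgroup. -/
theorem exists_not_fixed (h : PotSupersingular p W) (B : TateBasis p W) {U : Subgroup G}
    (hU : IsOpen (U : Set G)) {ψ : G → ℚ_[p]} (hψ : ContinuousOn ψ (U : Set G))
    (hadd : ∀ σ ∈ U, ∀ τ ∈ U, ψ (σ * τ) = ψ σ + ψ τ) {e : Fin 2 → ℤ_[p]} {i : Fin 2}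
    (hi : IsUnit (e i)) :
    ∃ n, ∃ τ ∈ U, ψ τ = 0 ∧ localGaloisToGlobal p τ • B.φ (n + 1) e ≠ B.φ (n + 1) e := by
  by_contra hc
  push Not at hc
  obtain ⟨N, hN, hN1⟩ := exists_congr_one B
  have hUN : IsOpen ((U ⊓ N : Subgroup G) : Set G) := hU.inter hN
  obtain ⟨n, hn⟩ := exists_orbit_gt h B hUN hi 1
  rw [one_mul] at hn
  exact absurd hn (not_lt.2 (ncard_orbit_le B hUN (fun σ hσ => hN1 σ hσ.2)
    (hψ.mono fun σ hσ => hσ.1) (fun σ hσ τ hτ => hadd σ hσ.1 τ hτ.1)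
    fun τ hτ h0 => hc n τ hτ.1 h0))

/-- **Compactness**: if every line is moved, only finitely many points of `p`-power order are
fixed. -/
theorem finite_fixed_of_moved (B : TateBasis p W) (S : Set G)
    (h : ∀ (e : Fin 2 → ℤ_[p]) (i : Fin 2), IsUnit (e i) →
      ∃ n, ∃ τ ∈ S, localGaloisToGlobal p τ • B.φ (n + 1) e ≠ B.φ (n + 1) e) :
    {P : Pts W | (∃ n, p ^ n • P = 0) ∧
      ∀ τ ∈ S, localGaloisToGlobal p τ • P = P}.Finite := by
  set Z : ℕ → Set (Fin 2 → ℤ_[p]) := fun n => {e | (∃ i, IsUnit (e i)) ∧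
    ∀ τ ∈ S, localGaloisToGlobal p τ • B.φ (n + 1) e = B.φ (n + 1) e} with hZdef
  have hZmono : ∀ n, Z (n + 1) ⊆ Z n := fun n e he => ⟨he.1, fun τ hτ => by
    rw [← B.compat (n + 1) e, FA.RT.Tate.gal_smul_nsmul, he.2 τ hτ]⟩
  have hZclosed : ∀ n, IsClosed (Z n) := fun n => by
    have h1 : IsClosed {e : Fin 2 → ℤ_[p] | ∃ i, IsUnit (e i)} := by
      simp only [PadicInt.isUnit_iff, Set.setOf_exists]
      exact isClosed_iUnion_of_finite fun i =>
        isClosed_eq (continuous_norm.comp (continuous_apply i)) continuous_const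
    have hopen : ∀ P : Pts W, IsOpen {e : Fin 2 → ℤ_[p] | B.φ (n + 1) e = P} := fun P => by
      rw [isOpen_iff_mem_nhds]
      intro e he
      have hev : ∀ i, ∀ᶠ e' in 𝓝 e, ‖e' i - e i‖ < (p : ℝ) ^ (-((n + 1 : ℕ) : ℤ)) := fun i => by
        have ht : Filter.Tendsto (fun e' : Fin 2 → ℤ_[p] => ‖e' i - e i‖) (𝓝 e) (𝓝 0) := by
          simpa using (((continuous_apply i).sub (continuous_const (y := e i))).norm).tendsto e
        exact ht.eventually (eventually_lt_nhds (zpow_pos (Nat.cast_pos.2 hp.out.pos) _))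
      filter_upwards [Filter.eventually_all.2 hev] with e' he'
      refine (B.phi_eq_iff.2 fun i => ?_).trans he
      rw [← sub_eq_zero, ← map_sub, ← RingHom.mem_ker, PadicInt.ker_toZModPow,
        ← PadicInt.norm_le_pow_iff_mem_span_pow]
      exact (he' i).le
    have h2 : IsClosed (B.φ (n + 1) ⁻¹'
        {P : Pts W | ∀ τ ∈ S, localGaloisToGlobal p τ • P = P}) := by
      rw [← isOpen_compl_iff]
      have e1 : (B.φ (n + 1) ⁻¹'
          {P : Pts W | ∀ τ ∈ S, localGaloisToGlobal p τ • P = P})ᶜ =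
          ⋃ P ∈ {P : Pts W | ∀ τ ∈ S, localGaloisToGlobal p τ • P = P}ᶜ,
            {e | B.φ (n + 1) e = P} := by
        ext e
        rw [Set.mem_iUnion₂]
        exact ⟨fun hh => ⟨_, hh, rfl⟩, fun ⟨P, hP, he⟩ hh => hP (he ▸ hh)⟩
      rw [e1]
      exact isOpen_biUnion fun P _ => hopen P
    exact h1.inter h2
  obtain ⟨n₀, hn₀⟩ : ∃ n, Z n = ∅ := by
    by_contra hne
    push Not at hne
    obtain ⟨e, he⟩ := IsCompact.nonempty_iInter_of_sequence_nonempty_isCompact_isClosed Z hZmono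
      hne (hZclosed 0).isCompact hZclosed
    rw [Set.mem_iInter] at he
    obtain ⟨i, hi⟩ := (he 0).1
    obtain ⟨n, τ, hτ, hne'⟩ := h _ i hi
    exact hne' ((he n).2 τ hτ)
  have : NeZero (p ^ n₀) := ⟨pow_ne_zero _ hp.out.ne_zero⟩
  refine (Set.finite_range fun k : Fin 2 → ZMod (p ^ n₀) =>
    B.φ n₀ fun i => ((k i).val : ℤ_[p])).subset ?_
  rintro P ⟨⟨m, hm⟩, hfix⟩
  obtain ⟨w, hw⟩ := B.surj n₀ P (by
    obtain ⟨v, -, hv⟩ := (Nat.dvd_prime_pow hp.out).1 (addOrderOf_dvd_of_nsmul_eq_zero hm)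
    by_contra hP0
    have hv0 : n₀ < v := by
      by_contra hle
      exact hP0 (addOrderOf_dvd_iff_nsmul_eq_zero.1 (hv ▸ pow_dvd_pow p (not_lt.1 hle)))
    obtain ⟨w, rfl⟩ := B.surj v P (by rw [← hv]; exact addOrderOf_nsmul_eq_zero P)
    obtain ⟨k, rfl⟩ := Nat.exists_eq_add_of_le (show n₀ + 1 ≤ v from hv0)
    refine Set.eq_empty_iff_forall_notMem.1 hn₀ w
      ⟨FA.IsogenyBound.exists_isUnit_coord B (by omega) hv, fun τ hτ => ?_⟩
    rw [← B.pow_compat (n₀ + 1) k w, FA.RT.Tate.gal_smul_nsmul, hfix τ hτ])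
  refine ⟨fun i => PadicInt.toZModPow n₀ (w i), ?_⟩
  rw [← hw]
  refine B.phi_eq_iff.2 fun i => ?_
  rw [map_natCast, ZMod.natCast_zmod_val]

/-- **Finitely many points of `p`-power order are fixed by the kernel of a character.** -/
theorem finite_fixed_by_kernel (h : PotSupersingular p W) {U : Subgroup G}
    (hU : IsOpen (U : Set G)) {ψ : G → ℚ_[p]} (hψ : ContinuousOn ψ (U : Set G))
    (hadd : ∀ σ ∈ U, ∀ τ ∈ U, ψ (σ * τ) = ψ σ + ψ τ) :
    {P : Pts W | (∃ n, p ^ n • P = 0) ∧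
      ∀ τ ∈ U, ψ τ = 0 → localGaloisToGlobal p τ • P = P}.Finite := by
  obtain ⟨B⟩ := exists_tateBasis (p := p) W
  refine (finite_fixed_of_moved B {τ | τ ∈ U ∧ ψ τ = 0} fun e i hi => ?_).subset
    fun P hP => ⟨hP.1, fun τ hτ => hP.2 τ hτ.1 hτ.2⟩
  obtain ⟨n, τ, hτ, h0, hne⟩ := exists_not_fixed h B hU hψ hadd hi
  exact ⟨n, τ, ⟨hτ, h0⟩, hne⟩

end FA.LocIrr
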