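import Fermat.Agent.LocalIrreducible.Irreducible
import Fermat.Agent.KummerDeRham.LineCases
import Fermat.Agent.Imai.SignTwo

/-!
# The classification

Away from potentially supersingular reduction the triangular shapes give a line stable under the
whole Galois group of `ℚ_p`, with inertia acting on the quotient through a finite group. So the
representation is irreducible on every open subgroup exactly at potentially supersingular reduction.
-/

set_option autoImplicit false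
set_option linter.unusedSectionVars false
set_option linter.style.haveILetI false

noncomputable section

open Matrix WeierstrassCurve FA.TateSen FA.Sen FA.PadicHodge FA.Frob FA.EC FA.Local FA.RT.Tate
  FA.PadicChar FA.CurveDR FA.OrdDR FA.PotDR
open scoped WeierstrassCurve.Affine Classical

namespace FA.LocIrr

variable {p : ℕ} [hp : Fact p.Prime] {W : WeierstrassCurve ℤ} [(ratCurve W).IsElliptic]

local notation "G" => PadicAlgCl p ≃ₐ[ℚ_[p]] PadicAlgCl p
local notation "GQ" => AlgebraicClosure ℚ ≃ₐ[ℚ] AlgebraicClosure ℚ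

/-- A triangular form at a pole of `j`, with square one in the quotient, for every `p`. -/
theorem exists_triangular_pole (hj : padicValRat p (ratCurve W).j < 0) (B : TateBasis p W) :
    ∃ (C : (Matrix (Fin 2) (Fin 2) ℚ_[p])ˣ) (T : G → Matrix (Fin 2) (Fin 2) ℚ_[p]),
      (∀ τ, curveAtP B τ * (C : Matrix (Fin 2) (Fin 2) ℚ_[p]) =
        (C : Matrix (Fin 2) (Fin 2) ℚ_[p]) * T τ) ∧ (∀ τ, T τ 1 0 = 0) ∧
        ∀ τ, T τ 1 1 ^ 2 = 1 := by
  obtain ⟨d, hd, W', hW', hdvd, hc⟩ :=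
    FA.OggShafarevich.exists_multiplicative_twist (ratCurve W) hj
  haveI := FA.Root.quadTwist_isElliptic (ratCurve W) hd
  have hΔ := FA.Frob.Δ_ne_zero_of_model hW'
  haveI := FA.Frob.ratCurve_isElliptic_of_Δ hΔ
  obtain ⟨e₁, he₁⟩ := FA.Root.exists_equiv_of_model hW'
  obtain ⟨s, t, hs, ht⟩ := FA.Root.exists_twist_equiv_sqrt (ratCurve W) hd
  have hsign : ∀ σ : GQ, σ s = s ∨ σ s = -s := fun σ =>
    sq_eq_sq_iff_eq_or_eq_neg.1 (by rw [← map_pow, hs, AlgEquiv.commutes])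
  obtain ⟨B'⟩ := exists_tateBasis (p := p) W'
  obtain ⟨M, hM⟩ := exists_twist_matrix B B' (e₁.trans t) hsign fun σ Q =>
    ⟨fun h => ((ht σ (e₁ Q)).1 h).trans (congrArg t (he₁ σ Q).symm),
      fun h => ((ht σ (e₁ Q)).2 h).trans (congrArg (fun R => -t R) (he₁ σ Q).symm)⟩
  have hm := multAt_padicPlace (p := p) hΔ hdvd hc
  obtain ⟨C', T', hT', h10, h11⟩ : ∃ (C' : (Matrix (Fin 2) (Fin 2) ℚ_[p])ˣ)
      (T' : G → Matrix (Fin 2) (Fin 2) ℚ_[p]),
      (∀ τ, curveAtP B' τ * (C' : Matrix (Fin 2) (Fin 2) ℚ_[p]) =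
        (C' : Matrix (Fin 2) (Fin 2) ℚ_[p]) * T' τ) ∧ (∀ τ, T' τ 1 0 = 0) ∧
        ∀ τ, T' τ 1 1 ^ 2 = 1 := by
    by_cases h2 : p = 2
    · subst h2
      exact FA.Imai.exists_triangular_local_two_sq B' hm
    · obtain ⟨C', η, y, -, -, hsq, hC'⟩ := FA.CurveDR.exists_shape B' h2 hm
      exact ⟨C', _, hC', fun τ => by simp, fun τ => by simp [hsq τ]⟩
  choose ε hε he using hM
  refine ⟨M * C', fun τ => ε τ • T' τ, fun τ => ?_, fun τ => by simp [h10],
    fun τ => by simp [mul_pow, hε, h11 τ]⟩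
  rw [Units.val_mul, ← mul_assoc, he τ, mul_assoc (M : Matrix (Fin 2) (Fin 2) ℚ_[p]),
    smul_mul_assoc, hT']
  simp only [mul_smul_comm, mul_assoc]

/-- **Away from potentially supersingular reduction**: a triangular form whose quotient is
trivial on inertia inside some open subgroup. -/
theorem exists_triangular_of_not (h : ¬ PotSupersingular p W) (B : TateBasis p W) :
    ∃ (C : (Matrix (Fin 2) (Fin 2) ℚ_[p])ˣ) (T : G → Matrix (Fin 2) (Fin 2) ℚ_[p]),
      (∀ τ, curveAtP B τ * (C : Matrix (Fin 2) (Fin 2) ℚ_[p]) =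
        (C : Matrix (Fin 2) (Fin 2) ℚ_[p]) * T τ) ∧ (∀ τ, T τ 1 0 = 0) ∧
        ∃ U : Subgroup G, IsOpen (U : Set G) ∧ ∀ τ ∈ U, τ ∈ inertiaGal p → T τ 1 1 = 1 := by
  rcases lt_or_ge (padicValRat p (ratCurve W).j) 0 with hj | hj
  · obtain ⟨C, T, hT, h10, h11⟩ := exists_triangular_pole hj B
    have hρ := isQpRep_curveAtP B
    have hTe : ∀ τ, T τ = (↑C⁻¹ : Matrix (Fin 2) (Fin 2) ℚ_[p]) * curveAtP B τ *
        (C : Matrix (Fin 2) (Fin 2) ℚ_[p]) := fun τ => by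
      rw [mul_assoc, hT, Units.inv_mul_cancel_left]
    have hTc : Continuous T := by
      rw [funext hTe]
      exact (continuous_const.mul hρ.cont).mul continuous_const
    have h1 : T 1 1 1 = 1 := by
      rw [hTe, hρ.map_one, mul_one, Units.inv_mul, Matrix.one_apply_eq]
    obtain ⟨N, -, hNo, hN⟩ := FA.Sen.exists_open_normal_subset
      (W := (fun τ => T τ 1 1) ⁻¹' {x | x ≠ -1})
      ((isOpen_ne.preimage (hTc.matrix_elem 1 1)).mem_nhds (by
        show T 1 1 1 ≠ -1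
        rw [h1]
        norm_num))
    exact ⟨C, T, hT, h10, N, hNo, fun τ hτ hI =>
      (sq_eq_one_iff.1 (h11 τ)).resolve_right (hN τ hτ)⟩
  · obtain ⟨C, η, y, -, -, ⟨U, hU, hη⟩, hC⟩ :=
      exists_shape_of_potOrdinary ((potOrdinary_or_supersingular hj).2 h) B
    exact ⟨C, _, hC, fun τ => by simp, U, hU, fun τ hτ hI => by simp [hη τ hτ hI]⟩

/-- Away from potentially supersingular reduction a line is stable under the whole group. -/
theorem exists_stable_line (h : ¬ PotSupersingular p W) (B : TateBasis p W) :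
    ∃ v : Fin 2 → ℚ_[p], v ≠ 0 ∧ ∀ σ : G, ∃ a : ℚ_[p], curveAtP B σ *ᵥ v = a • v := by
  obtain ⟨C, T, hT, h10, -⟩ := exists_triangular_of_not h B
  refine ⟨(C : Matrix (Fin 2) (Fin 2) ℚ_[p]) *ᵥ Pi.single 0 1, fun h0 => ?_, fun σ => ⟨T σ 0 0, ?_⟩⟩
  · have h1 := congrArg (fun w => (↑C⁻¹ : Matrix (Fin 2) (Fin 2) ℚ_[p]) *ᵥ w) h0
    simp only [Matrix.mulVec_mulVec, Units.inv_mul, Matrix.one_mulVec, Matrix.mulVec_zero] at h1
    have h2 := congrFun h1 0
    simp at h2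
  · rw [Matrix.mulVec_mulVec, hT, ← Matrix.mulVec_mulVec, ← Matrix.mulVec_smul]
    congr 1
    funext k
    fin_cases k <;> simp [h10]

/-- **Irreducible on every open subgroup exactly at potentially supersingular reduction.** -/
theorem potSupersingular_iff_irreducible (B : TateBasis p W) :
    PotSupersingular p W ↔ ∀ U : Subgroup G, IsOpen (U : Set G) → ∀ v : Fin 2 → ℚ_[p], v ≠ 0 →
      ∃ σ ∈ U, ∀ a : ℚ_[p], curveAtP B σ *ᵥ v ≠ a • v := by
  refine ⟨fun h U hU v hv => no_stable_line h B hU hv, fun h => ?_⟩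
  by_contra hs
  obtain ⟨v, hv, hv'⟩ := exists_stable_line hs B
  obtain ⟨σ, -, hσ⟩ := h ⊤ isOpen_univ v hv
  obtain ⟨a, ha⟩ := hv' σ
  exact hσ a ha

/-- A stable line under some open subgroup is the same as one under the whole group. -/
theorem exists_line_open_iff (B : TateBasis p W) :
    ((∃ U : Subgroup G, IsOpen (U : Set G) ∧ ∃ v : Fin 2 → ℚ_[p], v ≠ 0 ∧
        ∀ σ ∈ U, ∃ a : ℚ_[p], curveAtP B σ *ᵥ v = a • v) ↔ ¬ PotSupersingular p W) ∧
    ((∃ v : Fin 2 → ℚ_[p], v ≠ 0 ∧ ∀ σ : G, ∃ a : ℚ_[p], curveAtP B σ *ᵥ v = a • v) ↔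
      ¬ PotSupersingular p W) := by
  refine ⟨⟨fun ⟨U, hU, v, hv, hst⟩ hs => ?_, fun hs => ?_⟩,
    fun ⟨v, hv, hst⟩ hs => ?_, fun hs => exists_stable_line hs B⟩
  · obtain ⟨σ, hσ, hσ'⟩ := no_stable_line hs B hU hv
    obtain ⟨a, ha⟩ := hst σ hσ
    exact hσ' a ha
  · obtain ⟨v, hv, hv'⟩ := exists_stable_line hs B
    exact ⟨⊤, isOpen_univ, v, hv, fun σ _ => hv' σ⟩
  · obtain ⟨σ, -, hσ'⟩ := no_stable_line hs B (U := ⊤) isOpen_univ hv
    obtain ⟨a, ha⟩ := hst σ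
    exact hσ' a ha

theorem exists_smul_of_det (v w : Fin 2 → ℚ_[p]) (hv : v ≠ 0)
    (h : v 0 * w 1 - v 1 * w 0 = 0) : ∃ a : ℚ_[p], w = a • v := by
  by_cases h0 : v 0 = 0
  · have h1 : v 1 ≠ 0 := fun h1 => hv (funext (Fin.forall_fin_two.2 ⟨h0, h1⟩))
    refine ⟨w 1 / v 1, funext (Fin.forall_fin_two.2 ⟨?_, ?_⟩)⟩
    · rw [Pi.smul_apply, h0, smul_zero]
      rw [h0, zero_mul, zero_sub, neg_eq_zero] at h
      exact (mul_eq_zero.1 h).resolve_left h1
    · rw [Pi.smul_apply, smul_eq_mul, div_mul_cancel₀ _ h1]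
  · refine ⟨w 0 / v 0, funext (Fin.forall_fin_two.2 ⟨?_, ?_⟩)⟩
    · rw [Pi.smul_apply, smul_eq_mul, div_mul_cancel₀ _ h0]
    · rw [Pi.smul_apply, smul_eq_mul, div_mul_eq_mul_div, eq_div_iff h0]
      linear_combination h

/-- A matrix commuting with an open subgroup is scalar or has no eigenvalue. -/
theorem eq_smul_one_of_commute (h : PotSupersingular p W) (B : TateBasis p W) {U : Subgroup G}
    (hU : IsOpen (U : Set G)) {M : Matrix (Fin 2) (Fin 2) ℚ_[p]}
    (hM : ∀ σ ∈ U, M * curveAtP B σ = curveAtP B σ * M) {a : ℚ_[p]} {v : Fin 2 → ℚ_[p]}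
    (hv : v ≠ 0) (hev : M *ᵥ v = a • v) : M = a • 1 := by
  by_contra hne
  obtain ⟨σ, hσ, hσv⟩ := no_stable_line h B hU hv
  set N := M - a • (1 : Matrix (Fin 2) (Fin 2) ℚ_[p]) with hN
  have hN1 : N *ᵥ v = 0 := by
    rw [hN, Matrix.sub_mulVec, hev, Matrix.smul_mulVec, Matrix.one_mulVec, sub_self]
  set w := curveAtP B σ *ᵥ v with hw
  have hN2 : N *ᵥ w = 0 := by
    rw [hw, Matrix.mulVec_mulVec, show N * curveAtP B σ = curveAtP B σ * N by
      rw [hN, sub_mul, mul_sub, hM σ hσ, smul_mul_assoc, mul_smul_comm, one_mul, mul_one],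
      ← Matrix.mulVec_mulVec, hN1, Matrix.mulVec_zero]
  obtain ⟨i, j, hij⟩ : ∃ i j, N i j ≠ 0 := by
    by_contra hc
    push Not at hc
    exact hne (sub_eq_zero.1 (Matrix.ext hc))
  have h1 := congrFun hN1 i
  have h2 := congrFun hN2 i
  simp only [Matrix.mulVec, dotProduct, Fin.sum_univ_two, Pi.zero_apply] at h1 h2
  have hd : N i j * (v 0 * w 1 - v 1 * w 0) = 0 := by
    fin_cases j
    · simp only [Fin.zero_eta, Fin.isValue]
      linear_combination w 1 * h1 - v 1 * h2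
    · simp only [Fin.mk_one, Fin.isValue]
      linear_combination v 0 * h2 - w 0 * h1
  obtain ⟨b, hb⟩ := exists_smul_of_det v w hv ((mul_eq_zero.1 hd).resolve_left hij)
  exact hσv b hb

/-- Inertia inside an open subgroup fixes no vector. -/
theorem no_inertia_invariant (h : PotSupersingular p W) (B : TateBasis p W) {U : Subgroup G}
    (hU : IsOpen (U : Set G)) {v : Fin 2 → ℚ_[p]} (hv : v ≠ 0) :
    ∃ σ ∈ U, σ ∈ inertiaGal p ∧ curveAtP B σ *ᵥ v ≠ v := by
  by_contra hc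
  push Not at hc
  obtain ⟨N, hNn, hNo, hNU⟩ := FA.Sen.exists_open_normal_subset (hU.mem_nhds U.one_mem)
  haveI := hNn
  have hρ := isQpRep_curveAtP B
  obtain ⟨σ, -, hσv⟩ := no_stable_line h B (U := ⊤) isOpen_univ hv
  set w := curveAtP B σ *ᵥ v with hw
  obtain ⟨τ, hτN, hτI, hχ⟩ := exists_chi_ne_one hNo
  have hτv : curveAtP B τ *ᵥ v = v := hc τ (hNU _ hτN) hτI
  have hτw : curveAtP B τ *ᵥ w = w := by
    rw [hw, Matrix.mulVec_mulVec, ← hρ.map_mul, show τ * σ = σ * (σ⁻¹ * τ * σ) by group,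
      hρ.map_mul, ← Matrix.mulVec_mulVec,
      hc (σ⁻¹ * τ * σ) (hNU _ ?_) (inertiaGal_conj_mem hτI σ)]
    have := hNn.conj_mem τ hτN σ⁻¹
    rwa [inv_inv] at this
  have hd : v 0 * w 1 - v 1 * w 0 ≠ 0 := fun h0 => by
    obtain ⟨a, ha⟩ := exists_smul_of_det v w hv h0
    exact hσv a ha
  refine hχ ?_
  rw [← det_curveAtP B τ]
  refine mul_right_cancel₀ hd ?_
  have a0 := congrFun hτv 0
  have a1 := congrFun hτv 1
  have b0 := congrFun hτw 0
  have b1 := congrFun hτw 1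
  simp only [Matrix.mulVec, dotProduct, Fin.sum_univ_two] at a0 a1 b0 b1
  rw [Matrix.det_fin_two, one_mul]
  linear_combination (curveAtP B τ 1 0 * w 0 + curveAtP B τ 1 1 * w 1) * a0 + v 0 * b1 -
    (curveAtP B τ 1 0 * v 0 + curveAtP B τ 1 1 * v 1) * b0 - w 0 * a1

/-- **Over every number field**: no line is stable under an open subgroup of the Galois group of
`ℚ`. -/
theorem no_stable_line_global (h : PotSupersingular p W) (B : TateBasis p W) {H : Subgroup GQ}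
    (hH : IsOpen (H : Set GQ)) {v : Fin 2 → ℚ_[p]} (hv : v ≠ 0) :
    ∃ σ ∈ H, ∀ a : ℚ_[p], (B.rep σ).map PadicInt.Coe.ringHom *ᵥ v ≠ a • v := by
  obtain ⟨τ, hτ, h'⟩ := no_stable_line h B (U := H.comap (localGaloisToGlobal p))
    (hH.preimage FA.GalCoh.continuous_loc) hv
  exact ⟨_, hτ, h'⟩

end FA.LocIrr
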