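import Fermat.Agent.OpenImageAll.Reduction
import Fermat.Agent.GalCoh.KummerUnits
import Fermat.Agent.GalCoh.LocalField

/-!
# Ramification of the division points of a supersingular equation

Along a chain of division points in the kernel of reduction the exponents of the values of the
abscissae in terms of that of `p` outgrow every constant times `p ^ n`. Over `ℚ_p` such an exponent
is at most the degree.
-/

set_option autoImplicit false
set_option linter.unusedSectionVars false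
set_option linter.style.haveILetI false

noncomputable section

open WeierstrassCurve Polynomial FA.Local FA.EC FA.OpenImageAll

local notation "Qb" => AlgebraicClosure ℚ

namespace FA.LocIrr

variable {p : ℕ} {A : ValuationSubring Qb} {V : WeierstrassCurve Qb} [V.IsElliptic]

/-- **Along a chain of division points of a supersingular equation** every exponent of the value
of the abscissa outgrows every constant times `p ^ n`. -/
theorem exists_exponent_gt (hp : p.Prime) (hA : A.LiesOverPrime p)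
    (hI : IntCoeff A.valuation V.toAffine) (hΔ : A.valuation V.Δ = 1)
    (hdeg : ((reduced hI).ΨSq p).natDegree = 0)
    (T : ℕ → V.toAffine.Point) (h0 : T 0 ≠ 0) (hp0 : p • T 0 = 0)
    (hT : ∀ n, p • T (n + 1) = T n) (D : ℕ) :
    ∃ n, ∀ (m : ℕ) (a : ℤ), 0 < m →
      A.valuation (xc (T n)) ^ m = A.valuation (p : Qb) ^ a → D * p ^ n < m := by
  classical
  set N := p ^ 2 with hN
  have hN2 : 2 ≤ N - 1 := by
    have := hp.two_le
    have : 4 ≤ N := by rw [hN]; nlinarith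
    omega
  have hne : ∀ n, T n ≠ 0 := fun n => by
    induction n with
    | zero => exact h0
    | succ n ih => exact fun h => ih (by rw [← hT n, h, nsmul_zero])
  have htor : ∀ n, p ^ (n + 1) • T n = 0 := fun n => by
    induction n with
    | zero => rw [pow_one, hp0]
    | succ n ih => rw [pow_succ, mul_nsmul', hT, ih]
  set v := A.valuation
  set w := fun n => v (xc (T n)) with hw
  have hw1 : ∀ n, 1 < w n := fun n => by
    have h := e1_of_pow_nsmul_eq_zero hp hA hI hΔ hdeg (htor n)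
    obtain ⟨x, y, hx, e⟩ := exists_some_of_ne_zero (hne n)
    simp only [hw, e, xc_some]
    rw [e, e1_some] at h
    exact h
  obtain ⟨kmax, hkmax, hmax⟩ := (Finset.Icc 1 (N - 1)).exists_max_image
    (fun k => v ((V.ΨSq (p : ℤ)).coeff k)) ⟨1, Finset.mem_Icc.mpr ⟨le_rfl, by omega⟩⟩
  set δ := v ((V.ΨSq (p : ℤ)).coeff kmax) with hδ
  have hcoef0 : ∀ k, 1 ≤ k → v ((V.ΨSq (p : ℤ)).coeff k) < 1 := fun k hk => by
    rw [coeff_ΨSq_lt_iff hI, eq_C_of_natDegree_eq_zero hdeg, coeff_C, if_neg (by omega)]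
  have hδ1 : δ < 1 := hcoef0 _ (Finset.mem_Icc.mp hkmax).1
  have hc0 : v ((V.ΨSq (p : ℤ)).coeff 0) = 1 := by
    refine eq_one_of_not_lt (coeff_ΨSq_le hI 0) fun h => reduced_ΨSq_ne_zero hp hA hI hΔ ?_
    rw [eq_C_of_natDegree_eq_zero hdeg, (coeff_ΨSq_lt_iff hI 0).mp h, map_zero]
  -- the values at an abscissa of large value
  have hpsi : ∀ x : Qb, 1 < v x →
      (δ * v x ^ (N - 1) < 1 → v ((V.ΨSq (p : ℤ)).eval x) = 1) ∧
      (1 ≤ δ * v x ^ (N - 1) → v ((V.ΨSq (p : ℤ)).eval x) ≤ δ * v x ^ (N - 1)) := by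
    intro x hx
    have hd : (V.ΨSq (p : ℤ)).natDegree < N := by
      have h := V.natDegree_ΨSq_le (p : ℤ)
      rw [Int.natAbs_natCast, ← hN] at h
      omega
    obtain ⟨R, hR, hRle⟩ : ∃ R, (V.ΨSq (p : ℤ)).eval x = R + (V.ΨSq (p : ℤ)).coeff 0 ∧
        v R ≤ δ * v x ^ (N - 1) := by
      refine ⟨∑ k ∈ Finset.range (N - 1), (V.ΨSq (p : ℤ)).coeff (k + 1) * x ^ (k + 1), ?_,
        v.map_sum_le fun k hk => ?_⟩
      · rw [eval_eq_sum_range' hd x]
        conv_lhs => rw [show N = (N - 1) + 1 by omega]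
        rw [Finset.sum_range_succ', pow_zero, mul_one]
      have hk' : k + 1 ≤ N - 1 := Finset.mem_range.mp hk
      rw [map_mul, map_pow]
      exact mul_le_mul' (hmax _ (Finset.mem_Icc.mpr ⟨by omega, hk'⟩))
        (pow_le_pow_right₀ hx.le hk')
    refine ⟨fun hlt => ?_, fun hge => ?_⟩
    · rw [hR, v.map_add_eq_of_lt_right (by rw [hc0]; exact hRle.trans_lt hlt), hc0]
    · rw [hR]
      exact v.map_add_le hRle (hc0.le.trans hge)
  have hphi : ∀ x : Qb, 1 < v x → v ((V.Φ (p : ℤ)).eval x) = v x ^ N := by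
    intro x hx
    rw [eval_eq_sum_range, natDegree_Φ, Int.natAbs_natCast, ← hN, Finset.sum_range_succ,
      show (V.Φ (p : ℤ)).coeff N = 1 by simpa [hN] using V.coeff_Φ (p : ℤ), one_mul,
      v.map_add_eq_of_lt_right, map_pow]
    rw [map_pow]
    refine v.map_sum_lt (pow_ne_zero _ (zero_lt_one.trans hx).ne') fun k hk => ?_
    rw [map_mul, map_pow]
    exact (mul_le_of_le_one_left' (coeff_Φ_le hI k)).trans_lt
      (pow_lt_pow_right₀ hx (Finset.mem_range.mp hk))
  -- one step of division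
  have hstep : ∀ n, w n * v ((V.ΨSq (p : ℤ)).eval (xc (T (n + 1)))) = w (n + 1) ^ N := fun n => by
    obtain ⟨x, y, hx, e⟩ := exists_some_of_ne_zero (hne (n + 1))
    have h1 : (p : ℤ) • Affine.Point.some x y hx = T n := by rw [natCast_zsmul, ← e, hT]
    have h2 := phi_eq_xc_mul hx (p : ℤ) (by rw [h1]; exact hne n)
    rw [h1] at h2
    have h3 := hw1 (n + 1)
    simp only [hw, e, xc_some] at h3 ⊢
    rw [← hphi x h3, h2, map_mul]
  have hbig : ∀ n, 1 ≤ δ * w (n + 1) ^ (N - 1) → w (n + 1) ≤ δ * w n := fun n h => by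
    have h1 : w (n + 1) ^ N ≤ w n * (δ * w (n + 1) ^ (N - 1)) :=
      hstep n ▸ mul_le_mul' le_rfl ((hpsi _ (hw1 (n + 1))).2 h)
    rw [show w n * (δ * w (n + 1) ^ (N - 1)) = δ * w n * w (n + 1) ^ (N - 1) from
      (mul_left_comm _ _ _).trans (mul_assoc _ _ _).symm,
      show N = 1 + (N - 1) by omega, pow_add, pow_one] at h1
    rw [show 1 + (N - 1) - 1 = N - 1 by omega] at h1
    exact le_of_mul_le_mul_right h1 (pow_pos (zero_lt_one.trans (hw1 _)) _)
  have hπ : v (p : Qb) ≠ 0 := v.ne_zero_iff.mpr (Nat.cast_ne_zero.mpr hp.ne_zero)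
  have hπ1 : v (p : Qb) < 1 := A.mem_nonunits_iff.mp hA
  have hx0 : ∀ n, xc (T n) ≠ 0 := fun n h => by
    have := hw1 n
    simp only [hw, h, map_zero] at this
    exact not_lt.mpr zero_le this
  obtain ⟨n₀, hn₀⟩ : ∃ n, δ * w n ^ (N - 1) < 1 := by
    by_contra hcon
    push Not at hcon
    have hδ0 : (V.ΨSq (p : ℤ)).coeff kmax ≠ 0 := fun h => by
      have := hcon 0
      rw [hδ, h, map_zero, zero_mul] at this
      exact not_lt.mpr this zero_lt_one
    obtain ⟨m₁, a₁, hm₁, -, e₁⟩ := exists_pow_valuation_eq hp hA hδ0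
    obtain ⟨m₂, a₂, hm₂, -, e₂⟩ := exists_pow_valuation_eq hp hA (hx0 0)
    have ha₁ : 0 < a₁ := by
      have h : v (p : Qb) ^ a₁ < 1 := e₁ ▸ pow_lt_one₀ zero_le hδ1 hm₁.ne'
      exact (zpow_lt_one_iff_right_of_lt_one₀ (zero_lt_iff.mpr hπ) hπ1).mp h
    have hdec : ∀ n, w n ≤ δ ^ n * w 0 := fun n => by
      induction n with
      | zero => simp
      | succ n ih =>
        exact (hbig n (hcon _)).trans (by rw [pow_succ', mul_assoc]; exact mul_le_mul' le_rfl ih)
    obtain ⟨n, hn⟩ : ∃ n : ℕ, 0 < a₁ * n * m₂ + a₂ * m₁ := by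
      refine ⟨(a₂ * m₁).natAbs + 1, ?_⟩
      have h2 : (1 : ℤ) ≤ a₁ * m₂ := one_le_mul_of_one_le_of_one_le ha₁ (by exact_mod_cast hm₂)
      push_cast
      nlinarith [abs_nonneg (a₂ * m₁), neg_abs_le (a₂ * m₁)]
    have h1 : 1 < (δ ^ n * w 0) ^ (m₁ * m₂) :=
      one_lt_pow₀ ((hw1 n).trans_le (hdec n)) (Nat.mul_pos hm₁ hm₂).ne'
    rw [mul_pow, ← pow_mul, show n * (m₁ * m₂) = m₁ * (n * m₂) by ring, pow_mul, e₁,
      show m₁ * m₂ = m₂ * m₁ by ring, pow_mul (w 0), e₂, ← zpow_natCast _ (n * m₂),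
      ← zpow_natCast _ m₁, ← zpow_mul, ← zpow_mul, ← zpow_add₀ hπ,
      one_lt_zpow_iff_right_of_lt_one₀ (zero_lt_iff.mpr hπ) hπ1] at h1
    push_cast at h1
    linarith
  have hsmall : ∀ j, δ * w (n₀ + j) ^ (N - 1) < 1 := fun j => by
    induction j with
    | zero => exact hn₀
    | succ j ih =>
      by_contra hcon
      rw [not_lt] at hcon
      have h := (hbig (n₀ + j) hcon).trans (mul_le_of_le_one_left' hδ1.le)
      exact not_lt.mpr hcon ((mul_le_mul' le_rfl (pow_le_pow_left' h _)).trans_lt ih)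
  have hiter : ∀ j, w (n₀ + j) ^ N ^ j = w n₀ := fun j => by
    induction j with
    | zero => simp
    | succ j ih =>
      have h := hstep (n₀ + j)
      rw [(hpsi _ (hw1 (n₀ + j + 1))).1 (hsmall (j + 1)), mul_one] at h
      rw [← Nat.add_assoc, pow_succ', pow_mul, ← h, ih]
  obtain ⟨m₀, a₀, hm₀, -, e₀⟩ := exists_pow_valuation_eq hp hA (hx0 n₀)
  obtain ⟨j, hj⟩ : ∃ j, a₀.natAbs * D * p ^ n₀ < p ^ j := ⟨_, Nat.lt_pow_self hp.one_lt⟩
  refine ⟨n₀ + j, fun m a hm e => not_le.mp fun hle => ?_⟩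
  have key : a * (N ^ j * m₀ : ℕ) = a₀ * m := by
    refine FA.Two.zpow_val_injective hp hA ?_
    rw [zpow_mul, ← e, zpow_mul, ← e₀, zpow_natCast, zpow_natCast]
    show (w (n₀ + j) ^ m) ^ (N ^ j * m₀) = (w n₀ ^ m₀) ^ m
    rw [← pow_mul (w (n₀ + j)), ← pow_mul (w n₀),
      show m * (N ^ j * m₀) = N ^ j * (m₀ * m) by ring, pow_mul]
    exact congrArg (· ^ (m₀ * m)) (hiter j)
  have ha : a ≠ 0 := fun h => by
    rw [h, zpow_zero] at e
    exact (one_lt_pow₀ (hw1 (n₀ + j)) hm.ne').ne' e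
  have h1 : N ^ j ≤ a₀.natAbs * m := by
    have h2 := congrArg Int.natAbs key
    rw [Int.natAbs_mul, Int.natAbs_mul, Int.natAbs_natCast, Int.natAbs_natCast] at h2
    rw [← h2]
    calc N ^ j ≤ N ^ j * m₀ := Nat.le_mul_of_pos_right _ hm₀
      _ ≤ a.natAbs * (N ^ j * m₀) := Nat.le_mul_of_pos_left _ (Int.natAbs_pos.mpr ha)
  have h4 : p ^ j * p ^ j ≤ a₀.natAbs * D * p ^ n₀ * p ^ j := by
    calc p ^ j * p ^ j = N ^ j := by rw [hN, ← pow_mul, ← pow_add]; congr 1; ring
      _ ≤ a₀.natAbs * m := h1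
      _ ≤ a₀.natAbs * (D * p ^ (n₀ + j)) := Nat.mul_le_mul_left _ hle
      _ = a₀.natAbs * D * p ^ n₀ * p ^ j := by ring
  exact absurd (Nat.le_of_mul_le_mul_right h4 (pow_pos hp.pos _)) (not_le.mpr hj)

/-- If every torsion point is in the kernel of reduction, the reduced division polynomial is
constant. -/
theorem natDegree_reduced_eq_zero (hp : p.Prime) (hA : A.LiesOverPrime p)
    (hI : IntCoeff A.valuation V.toAffine) (hΔ : A.valuation V.Δ = 1)
    (hall : ∀ (n : ℕ) (P : V.toAffine.Point), p ^ n • P = 0 → E1 A.valuation V.toAffine P) :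
    ((reduced hI).ΨSq (p : ℤ)).natDegree = 0 := by
  by_contra hdeg
  obtain ⟨T, hT, hTE⟩ := exists_torsion_not_e1_of_root hp hA hI hΔ hdeg 0
  exact hTE (by simpa using hall _ T hT)

section Local

variable [Fact p.Prime]

theorem valuation_le_iff_norm {x y : Qb} (hy : y ≠ 0) :
    (padicPlace p).valuation x ≤ (padicPlace p).valuation y ↔
      ‖padicEmbedding p x‖ ≤ ‖padicEmbedding p y‖ := by
  have hy' : padicEmbedding p y ≠ 0 := (_root_.map_ne_zero _).2 hy
  rw [← div_le_one₀ (zero_lt_iff.2 ((padicPlace p).valuation.ne_zero_iff.2 hy)), ← map_div₀,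
    ValuationSubring.valuation_le_one_iff, mem_padicPlace_iff, ← NNReal.coe_le_coe, coe_nnnorm,
    NNReal.coe_one, map_div₀, norm_div, div_le_one (norm_pos_iff.2 hy')]

/-- The exponent of a value is at most the degree over `ℚ_p`. -/
theorem exists_pow_valuation_local {x : Qb} (hx : x ≠ 0) :
    ∃ (m : ℕ) (a : ℤ), 0 < m ∧ m = (minpoly ℚ_[p] (padicEmbedding p x)).natDegree ∧
      (padicPlace p).valuation x ^ m = (padicPlace p).valuation (p : Qb) ^ a := by
  set y := padicEmbedding p x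
  have hy : y ≠ 0 := (_root_.map_ne_zero _).2 hx
  have hint : IsIntegral ℚ_[p] y := (Algebra.IsAlgebraic.isAlgebraic y).isIntegral
  set d := (minpoly ℚ_[p] y).natDegree with hd
  have hdpos : 0 < d := minpoly.natDegree_pos hint
  have hn : ‖y‖ ^ d = ‖(minpoly ℚ_[p] y).coeff 0‖ := by
    rw [← PadicAlgCl.spectralNorm_eq, spectralNorm.spectralNorm_eq_norm_coeff_zero_rpow,
      ← hd, one_div, ← Real.rpow_natCast, ← Real.rpow_mul (norm_nonneg _),
      inv_mul_cancel₀ (Nat.cast_ne_zero.2 hdpos.ne'), Real.rpow_one]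
  set a := ((minpoly ℚ_[p] y).coeff 0).valuation
  have hp0 : (p : Qb) ≠ 0 := Nat.cast_ne_zero.2 (Fact.out : p.Prime).ne_zero
  have hnp : ‖(p : PadicAlgCl p)‖ = (p : ℝ)⁻¹ := by
    rw [← map_natCast (algebraMap ℚ_[p] (PadicAlgCl p)), PadicAlgCl.norm_extends, Padic.norm_p]
  have he : ‖padicEmbedding p (x ^ d)‖ = ‖padicEmbedding p ((p : Qb) ^ a)‖ := by
    rw [map_pow, norm_pow, hn,
      Padic.norm_eq_zpow_neg_valuation (minpoly.coeff_zero_ne_zero hint hy),
      map_zpow₀, map_natCast, norm_zpow, hnp, inv_zpow, _root_.zpow_neg]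
  refine ⟨d, a, hdpos, rfl, ?_⟩
  rw [← map_pow, ← map_zpow₀]
  exact le_antisymm ((valuation_le_iff_norm (zpow_ne_zero _ hp0)).2 he.le)
    ((valuation_le_iff_norm (pow_ne_zero _ hx)).2 he.ge)

end Local

end FA.LocIrr
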