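import Fermat.Agent.PotentialDeRham.GoodModel
import Mathlib.AlgebraicGeometry.EllipticCurve.IsomOfJ

/-!
# Potentially supersingular reduction depends only on `j`

Curves with the same `j` are isomorphic over `ℚ̄`, so have the same good equations.
-/

set_option autoImplicit false
set_option linter.unusedSectionVars false
set_option linter.style.haveILetI false

noncomputable section

open WeierstrassCurve FA.Frob FA.EC FA.Local FA.PotDR
open scoped WeierstrassCurve.Affine Classical

namespace FA.LocIrr

local notation "Qb" => AlgebraicClosure ℚ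

variable {p : ℕ} [hp : Fact p.Prime]

theorem potSupersingular_of_j_eq {W W' : WeierstrassCurve ℤ} [(ratCurve W).IsElliptic]
    [(ratCurve W').IsElliptic] (hj : (ratCurve W).j = (ratCurve W').j)
    (h : PotSupersingular p W) : PotSupersingular p W' := by
  obtain ⟨hj0, C, V, hgood, hall⟩ := h
  haveI : ((ratCurve W)⁄Qb).IsElliptic :=
    inferInstanceAs ((ratCurve W).map (algebraMap ℚ Qb)).IsElliptic
  haveI : ((ratCurve W')⁄Qb).IsElliptic :=
    inferInstanceAs ((ratCurve W').map (algebraMap ℚ Qb)).IsElliptic
  have hjb : ((ratCurve W')⁄Qb).j = ((ratCurve W)⁄Qb).j := by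
    show ((ratCurve W').map (algebraMap ℚ Qb)).j = ((ratCurve W).map (algebraMap ℚ Qb)).j
    rw [WeierstrassCurve.map_j (ratCurve W'), WeierstrassCurve.map_j (ratCurve W), hj]
  obtain ⟨D, hD⟩ := exists_variableChange_of_j_eq _ _ hjb
  exact ⟨hj ▸ hj0, C * D, V, ⟨by rw [mul_smul, hD]; exact hgood.eq, hgood.int, hgood.disc⟩, hall⟩

/-- **Potentially supersingular reduction depends only on `j`.** -/
theorem potSupersingular_iff_of_j_eq {W W' : WeierstrassCurve ℤ} [(ratCurve W).IsElliptic]
    [(ratCurve W').IsElliptic] (hj : (ratCurve W).j = (ratCurve W').j) :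
    PotSupersingular p W ↔ PotSupersingular p W' :=
  ⟨potSupersingular_of_j_eq hj, potSupersingular_of_j_eq hj.symm⟩

end FA.LocIrr
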