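import Fermat.Agent.LocalIrreducible.Degree
import Fermat.Agent.OpenImageAll.Local
import Fermat.Agent.PotentialDeRham.DeRham

/-!
# No stable line at potentially supersingular reduction

A line stable under an open subgroup of the Galois group of `ℚ_p` allows a point of order `p ^ n`
only a bounded multiple of `p ^ n` conjugates over `ℚ_p`, against the ramification of the abscissae.
-/

set_option autoImplicit false
set_option linter.unusedSectionVars false
set_option linter.style.haveILetI false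

noncomputable section

open Matrix Polynomial WeierstrassCurve FA.TateSen FA.Frob FA.EC FA.Local FA.RT FA.RT.Tate
  FA.CurveDR FA.PotDR FA.OpenImageAll
open scoped WeierstrassCurve.Affine Classical

namespace FA.LocIrr

variable {p : ℕ} [hp : Fact p.Prime]

local notation "Qb" => AlgebraicClosure ℚ
local notation "G" => PadicAlgCl p ≃ₐ[ℚ_[p]] PadicAlgCl p

/-- Over `ℚ_p`, at most `#S · [G : U]` conjugates if on `U` they depend only on a value in `S`. -/
theorem natDegree_minpoly_local_le {S : Type*} [Finite S] {U : Subgroup G}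
    (hU : IsOpen (U : Set G)) (y : PadicAlgCl p) (f : G → S)
    (hf : ∀ σ ∈ U, ∀ σ' ∈ U, f σ = f σ' → σ y = σ' y) :
    (minpoly ℚ_[p] y).natDegree ≤ Nat.card (G ⧸ U) * Nat.card S := by
  haveI : Finite (G ⧸ U) := U.quotient_finite_of_isOpen hU
  have hy : IsIntegral ℚ_[p] y := (Algebra.IsAlgebraic.isAlgebraic y).isIntegral
  let g : G → (G ⧸ U) × S := fun τ => ((τ : G ⧸ U), f ((τ : G ⧸ U).out⁻¹ * τ))
  have hmem : ∀ τ : G, (τ : G ⧸ U).out⁻¹ * τ ∈ U := fun τ =>
    QuotientGroup.eq.1 (Quotient.out_eq (τ : G ⧸ U))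
  have hg : ∀ τ τ', g τ = g τ' → τ y = τ' y := fun τ τ' h => by
    obtain ⟨h1, h2⟩ := Prod.ext_iff.1 h
    have e : ((τ : G ⧸ U).out⁻¹ * τ) y = ((τ' : G ⧸ U).out⁻¹ * τ') y :=
      hf _ (hmem τ) _ (hmem τ') h2
    rw [AlgEquiv.mul_apply, AlgEquiv.mul_apply, show (τ : G ⧸ U) = (τ' : G ⧸ U) from h1] at e
    exact ((τ' : G ⧸ U).out⁻¹).injective e
  set R := ((minpoly ℚ_[p] y).rootSet (PadicAlgCl p))
  have hsub : R ⊆ Set.range fun q : (G ⧸ U) × S => Function.invFun g q y := by
    intro r hr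
    obtain ⟨τ, rfl⟩ := minpoly.exists_algEquiv_of_root' hy.isAlgebraic (mem_rootSet.mp hr).2
    exact ⟨g τ, hg _ _ (Function.invFun_eq ⟨τ, rfl⟩)⟩
  have hcard : R.ncard = (minpoly ℚ_[p] y).natDegree := by
    rw [← Nat.card_coe_set_eq, Nat.card_eq_fintype_card]
    exact Polynomial.card_rootSet_eq_natDegree (minpoly.irreducible hy).separable
      (IsAlgClosed.splits _)
  rw [← hcard]
  refine (Set.ncard_le_ncard hsub (Set.finite_range _)).trans ?_
  rw [← Nat.card_coe_set_eq]
  exact (Finite.card_range_le _).trans_eq (Nat.card_prod _ _)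

variable {W : WeierstrassCurve ℤ} [(ratCurve W).IsElliptic]

/-- A stable line contains an integral vector with a coordinate one. -/
theorem exists_integral_vec (B : TateBasis p W) {U : Set G} {v : Fin 2 → ℚ_[p]} (hv : v ≠ 0)
    (h : ∀ σ ∈ U, ∃ a : ℚ_[p], curveAtP B σ *ᵥ v = a • v) :
    ∃ (e : Fin 2 → ℤ_[p]) (i : Fin 2), e i = 1 ∧ ∀ σ ∈ U, ∃ c : ℤ_[p],
      B.rep (localGaloisToGlobal p σ) *ᵥ e = c • e := by
  obtain ⟨i, -, hi⟩ := Finset.exists_max_image Finset.univ (fun k => ‖v k‖) Finset.univ_nonempty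
  have hi0 : v i ≠ 0 := fun h0 => hv (funext fun k => norm_le_zero_iff.1
    ((hi k (Finset.mem_univ k)).trans_eq (by rw [h0, norm_zero])))
  let e : Fin 2 → ℤ_[p] := fun k => ⟨v k / v i, by
    rw [norm_div, div_le_one (norm_pos_iff.2 hi0)]
    exact hi k (Finset.mem_univ k)⟩
  have hei : e i = 1 := Subtype.ext (div_self hi0)
  refine ⟨e, i, hei, fun σ hσ => ?_⟩
  obtain ⟨a, ha⟩ := h σ hσ
  have hcoe : ∀ k, (((B.rep (localGaloisToGlobal p σ) *ᵥ e) k : ℤ_[p]) : ℚ_[p]) =
      a * ((e k : ℤ_[p]) : ℚ_[p]) := fun k => by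
    rw [show (((B.rep (localGaloisToGlobal p σ) *ᵥ e) k : ℤ_[p]) : ℚ_[p]) =
      (curveAtP B σ *ᵥ fun j => ((e j : ℤ_[p]) : ℚ_[p])) k from
      RingHom.map_mulVec (PadicInt.Coe.ringHom (p := p)) _ e k,
      show (fun j => ((e j : ℤ_[p]) : ℚ_[p])) = (v i)⁻¹ • v from funext fun j => by
        rw [Pi.smul_apply, smul_eq_mul, ← div_eq_inv_mul]]
    rw [Matrix.mulVec_smul, ha, Pi.smul_apply, Pi.smul_apply, smul_eq_mul, smul_eq_mul]
    show _ = a * (v k / v i)
    rw [div_eq_inv_mul]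
    ring
  refine ⟨(B.rep (localGaloisToGlobal p σ) *ᵥ e) i, funext fun k => ?_⟩
  apply Subtype.val_injective
  rw [hcoe, Pi.smul_apply, smul_eq_mul, PadicInt.coe_mul, hcoe, hei, PadicInt.coe_one, mul_one]

/-- The orbit of a point of `p`-power order under a set of local automorphisms. -/
def orbitAt (U : Subgroup G) (P : Pts W) : Set (Pts W) :=
  (fun σ => localGaloisToGlobal p σ • P) '' (U : Set G)

theorem finite_orbitAt (B : TateBasis p W) (U : Subgroup G) (n : ℕ) (v : Fin 2 → ℤ_[p]) :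
    (orbitAt U (B.φ n v)).Finite := by
  have : NeZero (p ^ n) := ⟨pow_ne_zero _ hp.out.ne_zero⟩
  refine (Set.finite_range fun k : Fin 2 → ZMod (p ^ n) =>
    B.φ n fun i => ((k i).val : ℤ_[p])).subset ?_
  rintro _ ⟨σ, -, rfl⟩
  refine ⟨fun i => PadicInt.toZModPow n ((B.rep (localGaloisToGlobal p σ) *ᵥ v) i), ?_⟩
  show _ = localGaloisToGlobal p σ • B.φ n v
  rw [B.rep_spec, B.phi_eq_iff]
  intro i
  rw [map_natCast, ZMod.natCast_zmod_val]

/-- **Growth of orbits**: at potentially supersingular reduction the orbits on the points of order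
`p ^ (n + 1)` of any line outgrow every constant times `p ^ n`, for every open subgroup. -/
theorem exists_orbit_gt (h : PotSupersingular p W) (B : TateBasis p W) {U : Subgroup G}
    (hU : IsOpen (U : Set G)) {e : Fin 2 → ℤ_[p]} {i : Fin 2} (hi : IsUnit (e i)) (D : ℕ) :
    ∃ n, D * p ^ n < (orbitAt U (B.φ (n + 1) e)).ncard := by
  obtain ⟨-, C, V, hgood, hall⟩ := h
  haveI := hgood.isElliptic
  haveI : ((ratCurve W)⁄Qb).IsElliptic :=
    inferInstanceAs ((ratCurve W).map (algebraMap ℚ Qb)).IsElliptic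
  let eV : V.toAffine.Point ≃+ Pts W := vcEquiv C hgood.eq.symm
  set U' := U ⊓ fixGal p (coeffSet C)
  have hU' : IsOpen (U' : Set G) := hU.inter (isOpen_fixGal (by simp))
  have hA := FA.GalCoh.liesOverPrime_padicPlace p
  set T : ℕ → V.toAffine.Point := fun n => eV.symm (B.φ (n + 1) e) with hT
  have hT0 : T 0 ≠ 0 := fun h0 => by
    have h1 : B.φ (0 + 1) e = 0 := eV.symm.injective (h0.trans (map_zero _).symm)
    have h2 := (B.ker 1 e).mp h1 i
    obtain ⟨z, hz⟩ := hi.map (PadicInt.toZModPow 1)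
    rw [← hz] at h2
    have : Fact (1 < p ^ 1) := ⟨by rw [pow_one]; exact hp.out.one_lt⟩
    exact z.ne_zero h2
  have hTp : p • T 0 = 0 := by
    have h1 : p • B.φ (0 + 1) e = 0 := by simpa using B.nsmul_phi 1 e
    rw [hT, ← map_nsmul, h1, map_zero]
  have hTs : ∀ n, p • T (n + 1) = T n := fun n => by
    rw [hT, ← map_nsmul]
    exact congrArg eV.symm (B.compat (n + 1) e)
  obtain ⟨n, hn⟩ := exists_exponent_gt hp.out hA hgood.int hgood.disc
    (natDegree_reduced_eq_zero hp.out hA hgood.int hgood.disc hall) T hT0 hTp hTs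
    (Nat.card (G ⧸ U') * D)
  have hne : T n ≠ 0 := by
    clear hn
    induction n with
    | zero => exact hT0
    | succ n ih => exact fun h0 => ih (by rw [← hTs n, h0, nsmul_zero])
  obtain ⟨x, y, hxy, hTn⟩ := exists_some_of_ne_zero hne
  rw [hTn, xc_some] at hn
  have hx1 : 1 < (padicPlace p).valuation x := by
    have h1 := hall (n + 1) (T n) (by rw [hT, ← map_nsmul, B.nsmul_phi, map_zero])
    rw [hTn] at h1
    exact (e1_some hxy).1 h1
  have hx0 : x ≠ 0 := fun h0 => by simp [h0] at hx1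
  obtain ⟨m, a, hm, hmd, hval⟩ := exists_pow_valuation_local (p := p) hx0
  have hgt := hn m a hm hval
  have hP : B.φ (n + 1) e = Affine.Point.some (vcX C x) (vcY C x y)
      (Affine.equation_iff_nonsingular.mp ((equation_vc C hgood.eq.symm x y).mpr hxy.1)) := by
    rw [← eV.apply_symm_apply (B.φ (n + 1) e)]
    exact congrArg eV hTn
  set O := orbitAt U (B.φ (n + 1) e) with hO
  haveI : Finite O := (finite_orbitAt B U (n + 1) e).to_subtype
  refine ⟨n, ?_⟩
  by_contra hle
  rw [not_lt, ← Nat.card_coe_set_eq] at hle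
  let f : G → O := fun σ => if hσ : σ ∈ U then ⟨_, σ, hσ, rfl⟩ else ⟨_, 1, U.one_mem, rfl⟩
  have hdeg := natDegree_minpoly_local_le hU' (padicEmbedding p x) f fun τ hτ τ' hτ' hh => ?_
  · rw [← hmd] at hdeg
    refine absurd hgt (not_lt.mpr (hdeg.trans ?_))
    rw [mul_assoc]
    exact Nat.mul_le_mul_left _ hle
  have h1 : localGaloisToGlobal p τ • B.φ (n + 1) e =
      localGaloisToGlobal p τ' • B.φ (n + 1) e := by
    have e1 : τ ∈ U := hτ.1
    have e2 : τ' ∈ U := hτ'.1
    simpa [f, e1, e2] using congrArg Subtype.val hh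
  rw [hP] at h1
  set σ := localGaloisToGlobal p τ with hσdef
  set σ' := localGaloisToGlobal p τ' with hσdef'
  have h2 : σ (vcX C x) = σ' (vcX C x) := (Affine.Point.some.inj h1).1
  have hu : σ (C.u : Qb) = C.u := apply_of_mem_fixGal hτ.2 (by simp)
  have hu' : σ' (C.u : Qb) = C.u := apply_of_mem_fixGal hτ'.2 (by simp)
  have hr : σ C.r = C.r := apply_of_mem_fixGal hτ.2 (by simp)
  have hr' : σ' C.r = C.r := apply_of_mem_fixGal hτ'.2 (by simp)
  simp only [vcX, map_add, map_mul, map_pow, hu, hu', hr, hr'] at h2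
  have h3 : σ x = σ' x := mul_left_cancel₀ (pow_ne_zero 2 C.u.ne_zero) (add_right_cancel h2)
  rw [← padicEmbedding_localGaloisToGlobal, ← padicEmbedding_localGaloisToGlobal,
    ← hσdef, ← hσdef', h3]


/-- **At potentially supersingular reduction no line is stable under an open subgroup** of the
Galois group of `ℚ_p`. -/
theorem no_stable_line (h : PotSupersingular p W) (B : TateBasis p W) {U : Subgroup G}
    (hU : IsOpen (U : Set G)) {v : Fin 2 → ℚ_[p]} (hv : v ≠ 0) :
    ∃ σ ∈ U, ∀ a : ℚ_[p], curveAtP B σ *ᵥ v ≠ a • v := by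
  by_contra hc
  push Not at hc
  obtain ⟨e, i, hi, he⟩ := exists_integral_vec B (U := (U : Set G)) hv fun σ hσ => hc σ hσ
  obtain ⟨n, hn⟩ := exists_orbit_gt h B hU (e := e) (i := i) (by rw [hi]; exact isUnit_one) p
  refine absurd hn (not_lt.2 ?_)
  have : NeZero (p ^ (n + 1)) := ⟨pow_ne_zero _ hp.out.ne_zero⟩
  have hsub : orbitAt U (B.φ (n + 1) e) ⊆
      Set.range fun k : ZMod (p ^ (n + 1)) => B.φ (n + 1) ((k.val : ℤ_[p]) • e) := by
    rintro _ ⟨σ, hσ, rfl⟩
    obtain ⟨c, hc'⟩ := he σ hσ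
    refine ⟨PadicInt.toZModPow (n + 1) c, ?_⟩
    show _ = localGaloisToGlobal p σ • B.φ (n + 1) e
    rw [B.rep_spec, hc', B.phi_eq_iff]
    intro j
    rw [Pi.smul_apply, Pi.smul_apply, smul_eq_mul, smul_eq_mul, map_mul, map_mul, map_natCast,
      ZMod.natCast_zmod_val]
  refine (Set.ncard_le_ncard hsub (Set.finite_range _)).trans ?_
  rw [← Nat.card_coe_set_eq]
  exact (Finite.card_range_le _).trans_eq (by rw [Nat.card_zmod, pow_succ'])

end FA.LocIrr
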